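import Fermat.Agent.Gotzky.Basic

/-!
# Sums of three squares in `ℤ[φ]`

`Cancel d`: if `d² m` is a sum of three squares then so is `m`. The step of Davenport and Cassels,
the rotation at `2`, and the primes of norm `5`, `9`, `11`.
-/

set_option autoImplicit false
set_option synthInstance.maxSize 512

noncomputable section

namespace FA.MaassThree

open FA.Gotzky
open QuadraticAlgebra (norm)

/-- A sum of three squares. -/
def IsSum3 (m : O) : Prop := ∃ a b c : O, a ^ 2 + b ^ 2 + c ^ 2 = m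

/-- The square of `d` can be cancelled. -/
def Cancel (d : O) : Prop := ∀ m, IsSum3 (d ^ 2 * m) → IsSum3 m

theorem Cancel.mul {f g : O} (hf : Cancel f) (hg : Cancel g) : Cancel (f * g) :=
  fun m h => hg m (hf _ (by rwa [← mul_assoc, ← mul_pow]))

theorem cancel_unit {u : O} (hu : IsUnit u) : Cancel u := by
  obtain ⟨v, hv⟩ := hu.exists_left_inv
  rintro m ⟨a, b, c, h⟩
  refine ⟨v * a, v * b, v * c, ?_⟩
  linear_combination v ^ 2 * h + m * (v * u + 1) * hv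

theorem Cancel.star {d : O} (hd : Cancel d) : Cancel (star d) := by
  rintro m ⟨a, b, c, h⟩
  obtain ⟨p, q, r, h'⟩ := hd (Star.star m) ⟨Star.star a, Star.star b, Star.star c, by
    simpa [star_pow] using congrArg Star.star h⟩
  exact ⟨Star.star p, Star.star q, Star.star r, by simpa [star_pow] using congrArg Star.star h'⟩

/-- **The step of Davenport and Cassels.** -/
theorem reflect {d m a b c k x y z t : O} (hd : d ≠ 0) (h : a ^ 2 + b ^ 2 + c ^ 2 = d ^ 2 * m)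
    (ht : (k * a - d * x) ^ 2 + (k * b - d * y) ^ 2 + (k * c - d * z) ^ 2 = d * t) :
    IsSum3 (t ^ 2 * m) := by
  have e : t = k ^ 2 * d * m - 2 * k * (a * x + b * y + c * z) + d * (x ^ 2 + y ^ 2 + z ^ 2) :=
    mul_left_cancel₀ hd (by linear_combination k ^ 2 * h - ht)
  obtain ⟨A, hA⟩ : ∃ A, A = x ^ 2 + y ^ 2 + z ^ 2 - k ^ 2 * m := ⟨_, rfl⟩
  obtain ⟨B, hB⟩ : ∃ B, B = 2 * (k * d * m - (a * x + b * y + c * z)) := ⟨_, rfl⟩
  refine ⟨A * a + B * x, A * b + B * y, A * c + B * z, ?_⟩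
  rw [e]
  subst hA hB
  linear_combination (x ^ 2 + y ^ 2 + z ^ 2 - k ^ 2 * m) ^ 2 * h

theorem of_vector {d m a b c k x y z : O} (hd : d ≠ 0) (h : a ^ 2 + b ^ 2 + c ^ 2 = d ^ 2 * m)
    (ht : (k * a - d * x) ^ 2 + (k * b - d * y) ^ 2 + (k * c - d * z) ^ 2 = d) : IsSum3 m := by
  simpa only [one_pow, one_mul] using reflect (t := 1) hd h (ht.trans (mul_one d).symm)

/-- A prime with enough short isotropic vectors. -/
theorem cancel_of_list {R : Type*} [CommRing R] (f : O →+* R) (hs : Function.Surjective f)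
    {d : O} (hd : d ≠ 0) (hd0 : f d = 0) (hker : ∀ z, f z = 0 → d ∣ z) (L : List (O × O × O))
    (hL : ∀ r ∈ L, r.1 ^ 2 + r.2.1 ^ 2 + r.2.2 ^ 2 = d)
    (hcase : ∀ p q r : R, p ^ 2 + q ^ 2 + r ^ 2 = 0 → (p = 0 ∧ q = 0 ∧ r = 0) ∨
      ∃ e ∈ L, ∃ l : R, f e.1 = l * p ∧ f e.2.1 = l * q ∧ f e.2.2 = l * r) :
    Cancel d := by
  rintro m ⟨a, b, c, h⟩
  have h0 : f a ^ 2 + f b ^ 2 + f c ^ 2 = 0 := by
    rw [← map_pow, ← map_pow, ← map_pow, ← map_add, ← map_add, h, map_mul, map_pow, hd0,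
      zero_pow two_ne_zero, zero_mul]
  rcases hcase _ _ _ h0 with ⟨h1, h2, h3⟩ | ⟨e, he, l, h1, h2, h3⟩
  · obtain ⟨a, rfl⟩ := hker _ h1
    obtain ⟨b, rfl⟩ := hker _ h2
    obtain ⟨c, rfl⟩ := hker _ h3
    exact ⟨a, b, c, mul_left_cancel₀ (pow_ne_zero 2 hd) (by linear_combination h)⟩
  obtain ⟨k, rfl⟩ := hs l
  obtain ⟨x, hx⟩ := hker (k * a - e.1) (by rw [map_sub, map_mul, h1, sub_self])
  obtain ⟨y, hy⟩ := hker (k * b - e.2.1) (by rw [map_sub, map_mul, h2, sub_self])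
  obtain ⟨z, hz⟩ := hker (k * c - e.2.2) (by rw [map_sub, map_mul, h3, sub_self])
  refine of_vector hd h (k := k) (x := x) (y := y) (z := z) ?_
  rw [show k * a - d * x = e.1 by linear_combination hx,
    show k * b - d * y = e.2.1 by linear_combination hy,
    show k * c - d * z = e.2.2 by linear_combination hz]
  exact hL e he

/-- Evaluation at a root of `x ^ 2 = x + 1`. -/
def ev (p : ℕ) (r : ZMod p) (hr : r * r = 1 + r) : O →+* ZMod p where
  toFun z := z.re + z.im * r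
  map_one' := by simp [QuadraticAlgebra.re_one, QuadraticAlgebra.im_one]
  map_zero' := by simp
  map_add' _ _ := by simp; ring
  map_mul' z w := by
    simp
    linear_combination (-((z.im : ZMod p) * w.im)) * hr

theorem ev_surjective (p : ℕ) (r : ZMod p) (hr : r * r = 1 + r) :
    Function.Surjective (ev p r hr) := fun l => by
  obtain ⟨k, rfl⟩ := ZMod.intCast_surjective l
  exact ⟨(k : O), map_intCast _ _⟩

theorem cancel_five : Cancel ⟨2, 1⟩ := by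
  refine cancel_of_list (ev 5 3 (by decide)) (ev_surjective _ _ _) (by decide +kernel)
    (by decide +kernel) (fun z hz => ?_)
    [(⟨1, 0⟩, ⟨0, 1⟩, 0), (⟨1, 0⟩, ⟨0, -1⟩, 0), (⟨1, 0⟩, 0, ⟨0, 1⟩), (⟨1, 0⟩, 0, ⟨0, -1⟩),
      (0, ⟨1, 0⟩, ⟨0, 1⟩), (0, ⟨1, 0⟩, ⟨0, -1⟩)] (by decide +kernel) (by decide +kernel)
  have hk : ((z.re + z.im * 3 : ℤ) : ZMod 5) = 0 := by push_cast; exact hz
  obtain ⟨k, hk⟩ := (ZMod.intCast_zmod_eq_zero_iff_dvd _ _).1 hk
  refine ⟨⟨3, -1⟩ * (k : O) - (z.im : O) * ⟨2, -1⟩, ?_⟩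
  push_cast at hk
  ext <;> simp <;> linarith

theorem cancel_eleven : Cancel ⟨3, 1⟩ := by
  refine cancel_of_list (ev 11 8 (by decide)) (ev_surjective _ _ _) (by decide +kernel)
    (by decide +kernel) (fun z hz => ?_)
    [(⟨0, 1⟩, 1, 1), (⟨0, 1⟩, 1, -1), (⟨0, 1⟩, -1, 1), (⟨0, 1⟩, -1, -1),
      (1, ⟨0, 1⟩, 1), (1, ⟨0, 1⟩, -1), (-1, ⟨0, 1⟩, 1), (-1, ⟨0, 1⟩, -1),
      (1, 1, ⟨0, 1⟩), (1, -1, ⟨0, 1⟩), (-1, 1, ⟨0, 1⟩), (-1, -1, ⟨0, 1⟩)]
    (by decide +kernel) (by decide +kernel)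
  have hk : ((z.re + z.im * 8 : ℤ) : ZMod 11) = 0 := by push_cast; exact hz
  obtain ⟨k, hk⟩ := (ZMod.intCast_zmod_eq_zero_iff_dvd _ _).1 hk
  refine ⟨⟨4, -1⟩ * (k : O) - (z.im : O) * ⟨3, -1⟩, ?_⟩
  push_cast at hk
  ext <;> simp <;> linarith

theorem cancel_three : Cancel 3 := by
  refine cancel_of_list (res 3) (fun l => ⟨⟨l.re.val, l.im.val⟩, ?_⟩) (by decide +kernel)
    (by decide +kernel) (fun z hz => exists_eq_mul hz)
    [(1, 1, 1), (1, 1, -1), (1, -1, 1), (1, -1, -1), (⟨0, 1⟩, ⟨-1, 1⟩, 0), (⟨0, 1⟩, ⟨1, -1⟩, 0),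
      (⟨0, 1⟩, 0, ⟨-1, 1⟩), (⟨0, 1⟩, 0, ⟨1, -1⟩), (0, ⟨0, 1⟩, ⟨-1, 1⟩), (0, ⟨0, 1⟩, ⟨1, -1⟩)]
    (by decide +kernel) (by decide +kernel)
  revert l
  decide +kernel

/-- The rows of the rotation kill `(a, b, c)` modulo `4`. -/
abbrev Rot (a b c : QuadraticAlgebra (ZMod 4) 1 1) : Prop :=
  a - ⟨0, 1⟩ * b + ⟨-1, 1⟩ * c = 0 ∧ ⟨0, 1⟩ * a + ⟨-1, 1⟩ * b - c = 0 ∧
    ⟨-1, 1⟩ * a + b + ⟨0, 1⟩ * c = 0

theorem mod_four_cases : ∀ a b c : QuadraticAlgebra (ZMod 4) 1 1, a ^ 2 + b ^ 2 + c ^ 2 = 0 →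
    (2 * a = 0 ∧ 2 * b = 0 ∧ 2 * c = 0) ∨ Rot a b c ∨ Rot a b (-c) ∨ Rot a (-b) c ∨
      Rot a (-b) (-c) ∨ Rot a c b ∨ Rot a c (-b) ∨ Rot a (-c) b ∨ Rot a (-c) (-b) := by
  decide +kernel

theorem cancel_two : Cancel 2 := by
  have h20 : (2 : O) ≠ 0 := by decide +kernel
  have hdvd : ∀ z, res 4 z = 0 → ∃ w, z = 4 * w := fun z hz => by
    simpa using exists_eq_mul (n := 4) hz
  have rot : ∀ m a b c : O, a ^ 2 + b ^ 2 + c ^ 2 = 2 ^ 2 * m →
      Rot (res 4 a) (res 4 b) (res 4 c) → IsSum3 m := by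
    intro m a b c h ⟨h1, h2, h3⟩
    set f : O := ⟨0, 1⟩
    set g : O := ⟨-1, 1⟩
    have hf : res 4 f = ⟨0, 1⟩ := by decide +kernel
    have hg : res 4 g = ⟨-1, 1⟩ := by decide +kernel
    obtain ⟨x, hx⟩ := hdvd (a - f * b + g * c) (by
      rw [map_add, map_sub, map_mul, map_mul, hf, hg, h1])
    obtain ⟨y, hy⟩ := hdvd (f * a + g * b - c) (by
      rw [map_sub, map_add, map_mul, map_mul, hf, hg, h2])
    obtain ⟨z, hz⟩ := hdvd (g * a + b + f * c) (by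
      rw [map_add, map_add, map_mul, map_mul, hf, hg, h3])
    have e1 : f ^ 2 + g ^ 2 + 1 = 4 := by decide +kernel
    have e2 : f * g = 1 := by decide +kernel
    have e3 : f - g = 1 := by decide +kernel
    refine ⟨x, y, z, mul_left_cancel₀ (pow_ne_zero 4 h20) ?_⟩
    linear_combination -(a - f * b + g * c + 4 * x) * hx - (f * a + g * b - c + 4 * y) * hy -
      (g * a + b + f * c + 4 * z) * hz + (a ^ 2 + b ^ 2 + c ^ 2) * e1 + 4 * h +
      2 * (a * b + a * c - b * c) * (e2 - e3)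
  rintro m ⟨a, b, c, h⟩
  have h0 : res 4 a ^ 2 + res 4 b ^ 2 + res 4 c ^ 2 = 0 := by
    rw [← map_pow, ← map_pow, ← map_pow, ← map_add, ← map_add, h, map_mul,
      show res 4 (2 ^ 2) = 0 by decide +kernel, zero_mul]
  rcases mod_four_cases _ _ _ h0 with h' | h' | h' | h' | h' | h' | h' | h' | h'
  · have half : ∀ x : O, 2 * res 4 x = 0 → ∃ w, x = 2 * w := fun x hx => by
      obtain ⟨w, hw⟩ := hdvd (2 * x) (by rw [map_mul, map_ofNat, hx])
      exact ⟨w, mul_left_cancel₀ h20 (by linear_combination hw)⟩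
    obtain ⟨a, rfl⟩ := half _ h'.1
    obtain ⟨b, rfl⟩ := half _ h'.2.1
    obtain ⟨c, rfl⟩ := half _ h'.2.2
    exact ⟨a, b, c, mul_left_cancel₀ (pow_ne_zero 2 h20) (by linear_combination h)⟩
  · exact rot m a b c h h'
  · exact rot m a b (-c) (by linear_combination h) (by simpa only [map_neg] using h')
  · exact rot m a (-b) c (by linear_combination h) (by simpa only [map_neg] using h')
  · exact rot m a (-b) (-c) (by linear_combination h) (by simpa only [map_neg] using h')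
  · exact rot m a c b (by linear_combination h) h'
  · exact rot m a c (-b) (by linear_combination h) (by simpa only [map_neg] using h')
  · exact rot m a (-c) b (by linear_combination h) (by simpa only [map_neg] using h')
  · exact rot m a (-c) (-b) (by linear_combination h) (by simpa only [map_neg] using h')

end FA.MaassThree
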