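import Fermat.Agent.MaassThree.Primes
import Fermat.Agent.HilbertSiegel.Three

/-!
# The theorem of Maass

A totally positive `m` is a sum of three squares in `ℚ(√5)` by Hasse and Minkowski; clearing the
denominator and cancelling its square gives integers.
-/

set_option autoImplicit false

noncomputable section

namespace FA.MaassThree

open FA.Gotzky

instance fact_golden : Fact (∀ r : ℚ, r ^ 2 ≠ (1 : ℚ) + 1 * r) := ⟨fun r h => by
  have h5 : Irrational (Real.sqrt 5) := by
    simpa using Nat.Prime.irrational_sqrt (p := 5) (by norm_num)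
  have hs : ((2 * r - 1 : ℚ) : ℝ) ^ 2 = Real.sqrt 5 ^ 2 := by
    rw [Real.sq_sqrt (by norm_num)]
    have : (2 * r - 1) ^ 2 = 5 := by linear_combination 4 * h
    exact_mod_cast this
  rcases sq_eq_sq_iff_eq_or_eq_neg.1 hs with e | e
  · exact h5 ⟨2 * r - 1, e⟩
  · exact h5 ⟨-(2 * r - 1), by rw [Rat.cast_neg, e, neg_neg]⟩⟩

/-- `ℚ(√5)`. -/
abbrev K5 : Type := QuadraticAlgebra ℚ 1 1

instance charZero_K5 : CharZero K5 :=
  charZero_of_injective_algebraMap (algebraMap ℚ K5).injective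

instance numberField_K5 : NumberField K5 where

/-- The inclusion of `ℤ[φ]`. -/
def incl : O →+* K5 where
  toFun z := ⟨z.re, z.im⟩
  map_one' := by ext <;> simp [QuadraticAlgebra.re_one, QuadraticAlgebra.im_one]
  map_mul' _ _ := by ext <;> simp
  map_zero' := by ext <;> simp
  map_add' _ _ := by ext <;> simp

theorem incl_injective : Function.Injective incl := fun x y h =>
  QuadraticAlgebra.ext (by simpa [incl] using congrArg QuadraticAlgebra.re h)
    (by simpa [incl] using congrArg QuadraticAlgebra.im h)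

theorem exists_den (x : K5) : ∃ (n : ℕ) (y : O), n ≠ 0 ∧ incl y = (n : K5) * x := by
  refine ⟨x.re.den * x.im.den, ⟨x.re.num * x.im.den, x.im.num * x.re.den⟩,
    mul_ne_zero x.re.den_nz x.im.den_nz, ?_⟩
  have h1 := Rat.mul_den_eq_num x.re
  have h2 := Rat.mul_den_eq_num x.im
  ext <;> simp [incl]
  · rw [← h1]; ring
  · rw [← h2]; ring

theorem nonneg_of_totPos {m : O} (hm : TotPos m) (σ : K5 →+* ℝ) : 0 ≤ σ (incl m) := by
  obtain ⟨w, hw⟩ : ∃ w : ℝ, w = σ ⟨0, 1⟩ := ⟨_, rfl⟩
  have hsq : w ^ 2 = w + 1 := by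
    rw [hw, ← map_pow, ← map_one σ, ← map_add]
    congr 1
    ext <;> simp [pow_two, QuadraticAlgebra.re_one, QuadraticAlgebra.im_one]
  have he : σ (incl m) = m.re + m.im * w := by
    rw [show incl m = (m.re : K5) + (m.im : K5) * ⟨0, 1⟩ by ext <;> simp [incl],
      map_add, map_mul, map_intCast, map_intCast, ← hw]
  have : (w - Real.goldenRatio) * (w - Real.goldenConj) = 0 := by
    linear_combination hsq - w * Real.goldenRatio_add_goldenConj + Real.goldenRatio_mul_goldenConj
  have h0 := hm 0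
  have h1 := hm 1
  simp only [emb_apply, root, Matrix.cons_val_zero, Matrix.cons_val_one] at h0 h1
  rcases mul_eq_zero.1 this with e | e <;> rw [he, sub_eq_zero.1 e]
  exacts [h0.le, h1.le]

/-- **Maass.** -/
theorem isSum3_of_totPos {m : O} (hm : TotPos m) : IsSum3 m := by
  obtain ⟨x, hx⟩ := (Fermat.Agent.HilbertSiegel.three_squares_sqrt_five
    (r := (⟨-1, 2⟩ : K5)) (by decide +kernel) (incl m)).2
    (nonneg_of_totPos hm)
  rw [Fin.sum_univ_three] at hx
  obtain ⟨n₀, y₀, h₀, e₀⟩ := exists_den (x 0)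
  obtain ⟨n₁, y₁, h₁, e₁⟩ := exists_den (x 1)
  obtain ⟨n₂, y₂, h₂, e₂⟩ := exists_den (x 2)
  have hne : ((n₀ * n₁ * n₂ : ℕ) : O) ≠ 0 := fun h => by
    have := congrArg QuadraticAlgebra.re h
    rw [QuadraticAlgebra.re_natCast, QuadraticAlgebra.re_zero] at this
    exact mul_ne_zero (mul_ne_zero h₀ h₁) h₂ (by exact_mod_cast this)
  refine cancel_all hne m ⟨(n₁ * n₂ : ℕ) * y₀, (n₀ * n₂ : ℕ) * y₁, (n₀ * n₁ : ℕ) * y₂,
    incl_injective ?_⟩
  simp only [map_add, map_pow, map_mul, map_natCast, e₀, e₁, e₂]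
  push_cast
  linear_combination ((n₀ : K5) * n₁ * n₂) ^ 2 * hx

end FA.MaassThree
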