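import Fermat.Agent.MaassThree.Basic
import Fermat.Agent.Gotzky.Geometry

/-!
# Cancelling squares

For an irreducible `d` of norm at least `18` Minkowski gives the short vector; below, the norm is
`4`, `5`, `9` or `11` and `d` is one of the primes already treated.
-/

set_option autoImplicit false

noncomputable section

namespace FA.MaassThree

open FA.Gotzky MeasureTheory Matrix
open scoped Kronecker
open QuadraticAlgebra (norm)

/-- Bézout. -/
theorem exists_bezout (a : O) {d : O} (hd : d ≠ 0) :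
    ∃ g x y : O, g = x * a + y * d ∧ g ∣ a ∧ g ∣ d := by
  classical
  have hex : ∃ n : ℕ, ∃ x y : O, x * a + y * d ≠ 0 ∧ (norm (x * a + y * d)).natAbs = n :=
    ⟨_, 0, 1, by simpa using hd, rfl⟩
  obtain ⟨x, y, hg0, hg⟩ := Nat.find_spec hex
  have hdiv : ∀ x' y' : O, x * a + y * d ∣ x' * a + y' * d := fun x' y' => by
    obtain ⟨q, hq⟩ := exists_rem (x' * a + y' * d) hg0
    by_contra hne
    have h0 : (x' - q * x) * a + (y' - q * y) * d ≠ 0 :=
      fun h0 => hne ⟨q, by linear_combination h0⟩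
    have hmin := Nat.find_min' hex ⟨_, _, h0, rfl⟩
    rw [Int.abs_eq_natAbs, Int.abs_eq_natAbs] at hq
    rw [← hg, show (x' - q * x) * a + (y' - q * y) * d =
      x' * a + y' * d - q * (x * a + y * d) by ring] at hmin
    omega
  exact ⟨_, x, y, rfl, by simpa using hdiv 1 0, by simpa using hdiv 0 1⟩

theorem exists_inverse {d a : O} (hd : Irreducible d) (ha : ¬d ∣ a) :
    ∃ x e : O, x * a = 1 + d * e := by
  obtain ⟨g, x, y, hg, hga, hgd⟩ := exists_bezout a hd.ne_zero
  rcases hd.isUnit_or_isUnit hgd.choose_spec with hu | hu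
  · obtain ⟨v, hv⟩ := hu.exists_left_inv
    exact ⟨v * x, -(v * y), by linear_combination hv - v * hg⟩
  · obtain ⟨v, hv⟩ := hu.exists_left_inv
    refine absurd ((Dvd.intro v ?_).trans hga) ha
    rw [hgd.choose_spec, mul_assoc, mul_comm hgd.choose, hv, mul_one]

theorem prime_of_irreducible {d : O} (hd : Irreducible d) : Prime d := by
  refine ⟨hd.ne_zero, hd.not_isUnit, fun a b h => or_iff_not_imp_left.2 fun ha => ?_⟩
  obtain ⟨x, e, he⟩ := exists_inverse hd ha
  obtain ⟨c, hc⟩ := h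
  exact ⟨x * c - e * b, by linear_combination -b * he + x * hc⟩

theorem abs_norm_eq_one_iff {d : O} : |norm d| = 1 ↔ IsUnit d := by
  rw [QuadraticAlgebra.isUnit_iff_norm_isUnit, Int.isUnit_iff_abs_eq]

theorem cancel_of_dvd {d q : O} (hq : Cancel q) (hd : d ∣ q) (h : |norm d| = |norm q|)
    (hd0 : d ≠ 0) : Cancel d := by
  obtain ⟨e, rfl⟩ := hd
  have he : IsUnit e := by
    rw [← abs_norm_eq_one_iff]
    rw [map_mul, abs_mul] at h
    exact mul_left_cancel₀ (abs_ne_zero.2 fun k => hd0 (norm_eq_zero.1 k)) (by rw [← h, mul_one])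
  obtain ⟨v, hv⟩ := he.exists_left_inv
  rw [show d = d * e * v by rw [mul_assoc, mul_comm e, hv, mul_one]]
  exact hq.mul (cancel_unit (IsUnit.of_mul_eq_one _ hv))

theorem norm_mod_facts :
    (∀ x y : ZMod 4, x * x + x * y - y * y ≠ 2) ∧
      (∀ x y : ZMod 3, x * x + x * y - y * y = 0 → x = 0 ∧ y = 0) ∧
      (∀ x y : ZMod 7, x * x + x * y - y * y = 0 → x = 0 ∧ y = 0) ∧
      (∀ x y : ZMod 13, x * x + x * y - y * y = 0 → x = 0 ∧ y = 0) ∧
      (∀ x y : ZMod 17, x * x + x * y - y * y = 0 → x = 0 ∧ y = 0) := by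
  refine ⟨?_, ?_, ?_, ?_, ?_⟩ <;> decide +kernel

/-- The primes of small norm. -/
theorem cancel_small {d : O} (hd : Irreducible d) (hn : |norm d| < 18) : Cancel d := by
  have hN0 : norm d ≠ 0 := fun h => hd.ne_zero (norm_eq_zero.1 h)
  obtain ⟨n, hnd⟩ : ∃ n : ℕ, |norm d| = n := ⟨_, Int.abs_eq_natAbs _⟩
  have hn1 : n ≠ 1 := fun e => hd.not_isUnit (abs_norm_eq_one_iff.1 (by rw [hnd, e]; rfl))
  have hdn : d ∣ (n : O) := by
    rcases abs_choice (norm d) with e | e <;> rw [e] at hnd <;>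
      [refine ⟨star d, ?_⟩; refine ⟨-star d, ?_⟩] <;>
      rw [show (n : O) = ((n : ℤ) : O) by simp, ← hnd] <;>
      first
        | (rw [mul_neg, ← QuadraticAlgebra.algebraMap_norm_eq_mul_star]; simp)
        | (rw [← QuadraticAlgebra.algebraMap_norm_eq_mul_star]; simp)
  rw [hnd] at hn
  have hn0 : n ≠ 0 := fun e => hN0 (abs_eq_zero.1 (by rw [hnd, e]; rfl))
  rw [← Nat.prod_primeFactorsList hn0, Nat.cast_list_prod] at hdn
  obtain ⟨a, ha, hda⟩ := (prime_of_irreducible hd).dvd_prod_iff.1 hdn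
  obtain ⟨p, hp, rfl⟩ := List.mem_map.1 ha
  have hpp := Nat.prime_of_mem_primeFactorsList hp
  have hpn := Nat.dvd_of_mem_primeFactorsList hp
  have hp18 : p < 18 := by have := Nat.le_of_dvd (by omega) hpn; omega
  have hsq : n ∣ p ^ 2 := by
    obtain ⟨e, he⟩ := hda
    refine Int.natCast_dvd_natCast.1 ⟨|norm e|, ?_⟩
    push_cast
    rw [← hnd, ← abs_mul, ← map_mul, ← he, QuadraticAlgebra.norm_natCast,
      abs_of_nonneg (sq_nonneg _)]
  have hcases : n = p ∨ n = p ^ 2 := by
    obtain ⟨i, hi, rfl⟩ := (Nat.dvd_prime_pow hpp).1 hsq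
    interval_cases i
    · simp at hn1
    · exact Or.inl (pow_one p)
    · exact Or.inr rfl
  have inert : ∀ q : ℕ, (∀ x y : ZMod q, x * x + x * y - y * y = 0 → x = 0 ∧ y = 0) → n = q →
      q ^ 2 ∣ n := fun q hq hnq => by
    have h0 : ((norm d : ℤ) : ZMod q) = 0 := by
      rw [ZMod.intCast_zmod_eq_zero_iff_dvd, ← dvd_abs, hnd, hnq]
    rw [QuadraticAlgebra.norm_def] at h0
    push_cast at h0
    simp only [one_mul] at h0
    obtain ⟨⟨a, ha⟩, b, hb⟩ := (hq _ _ h0).imp (ZMod.intCast_zmod_eq_zero_iff_dvd _ _).1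
      (ZMod.intCast_zmod_eq_zero_iff_dvd _ _).1
    refine Int.natCast_dvd_natCast.1 ?_
    rw [← hnd, dvd_abs, QuadraticAlgebra.norm_def, ha, hb]
    exact ⟨a * a + a * b - b * b, by push_cast; ring⟩
  have hp2 := hpp.two_le
  obtain ⟨f4, f3, f7, f13, f17⟩ := norm_mod_facts
  interval_cases p <;> norm_num at hpp
  · rcases hcases with h | h
    · exfalso
      have h0 : ((norm d : ℤ) : ZMod 4) = 2 := by
        rcases abs_choice (norm d) with e | e <;> rw [e] at hnd <;>
          [rw [show norm d = 2 by omega]; rw [show norm d = -2 by omega]] <;> decide +kernel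
      rw [QuadraticAlgebra.norm_def] at h0
      push_cast at h0
      simp only [one_mul] at h0
      exact f4 _ _ h0
    · exact cancel_of_dvd cancel_two (by simpa using hda) (by rw [hnd, h]; decide +kernel)
        hd.ne_zero
  · rcases hcases with h | h
    · exfalso
      have := inert 3 f3 h
      rw [h] at this
      norm_num at this
    · exact cancel_of_dvd cancel_three (by simpa using hda) (by rw [hnd, h]; decide +kernel)
        hd.ne_zero
  · rcases hcases with h | h
    · rw [show ((5 : ℕ) : O) = ⟨2, 1⟩ * ⟨3, -1⟩ by decide +kernel] at hda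
      rcases (prime_of_irreducible hd).dvd_or_dvd hda with h' | h'
      · exact cancel_of_dvd cancel_five h' (by rw [hnd, h]; decide +kernel) hd.ne_zero
      · exact cancel_of_dvd (q := star (⟨2, 1⟩ : O)) cancel_five.star
          (by simpa using h') (by rw [hnd, h]; decide +kernel) hd.ne_zero
    · omega
  · rcases hcases with h | h
    · have := inert 7 f7 h; rw [h] at this; norm_num at this
    · omega
  · rcases hcases with h | h
    · rw [show ((11 : ℕ) : O) = ⟨3, 1⟩ * ⟨4, -1⟩ by decide +kernel] at hda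
      rcases (prime_of_irreducible hd).dvd_or_dvd hda with h' | h'
      · exact cancel_of_dvd cancel_eleven h' (by rw [hnd, h]; decide +kernel) hd.ne_zero
      · exact cancel_of_dvd (q := star (⟨3, 1⟩ : O)) cancel_eleven.star
          (by simpa using h') (by rw [hnd, h]; decide +kernel) hd.ne_zero
    · omega
  · rcases hcases with h | h
    · have := inert 13 f13 h; rw [h] at this; norm_num at this
    · omega
  · rcases hcases with h | h
    · have := inert 17 f17 h; rw [h] at this; norm_num at this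
    · omega

/-- The short vector. -/
theorem exists_short {d : O} (hd : 18 ≤ |norm d|) (p q : O) :
    ∃ u v w : O, (u ≠ 0 ∨ v ≠ 0 ∨ w ≠ 0) ∧
      ((u ^ 2 + (p * u + d * v) ^ 2 + (q * u + d * w) ^ 2 : O) ≠ 0) ∧
      |norm (u ^ 2 + (p * u + d * v) ^ 2 + (q * u + d * w) ^ 2)| < norm d ^ 2 := by
  have hd0 : d ≠ 0 := fun e => by simp [e] at hd
  have he : ∀ j, emb j d ≠ 0 := fun j => (map_ne_zero_iff _ (emb_injective j)).2 hd0
  set s : Fin 2 → ℝ := fun j => (emb j d)⁻¹ with hs
  let T : Fin 2 → Matrix (Fin 3) (Fin 3) ℝ := fun j => s j •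
    !![1, 0, 0; emb j p, emb j d, 0; emb j q, 0, emb j d]
  let E : Matrix (Fin 2) (Fin 2) ℝ := !![1, Real.goldenRatio; 1, Real.goldenConj]
  set M : Matrix (Fin 3 × Fin 2) (Fin 3 × Fin 2) ℝ :=
    blockDiagonal T * ((1 : Matrix (Fin 3) (Fin 3) ℝ) ⊗ₖ E) with hMdef
  have hT : ∀ j, (T j).det = s j := fun j => by
    simp [T, Matrix.det_fin_three, hs]
    field_simp [he j]
  have hE : |E.det| = Real.sqrt 5 := by
    rw [Matrix.det_fin_two]
    simp only [E, Matrix.of_apply, Matrix.cons_val', Matrix.cons_val_zero, Matrix.cons_val_one,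
      Matrix.cons_val_fin_one, one_mul, mul_one]
    rw [abs_sub_comm, Real.goldenRatio_sub_goldenConj, abs_of_nonneg (Real.sqrt_nonneg _)]
  have hMd : |M.det| = 5 * Real.sqrt 5 / |((norm d : ℤ) : ℝ)| := by
    rw [hMdef, det_mul, det_blockDiagonal, det_kronecker, det_one, ← mul_eq_norm]
    simp [hT, hE, hs, Fin.prod_univ_two, abs_mul, abs_inv]
    rw [pow_succ, Real.sq_sqrt (by norm_num : (0 : ℝ) ≤ 5)]
    field_simp [he 0, he 1]
  obtain ⟨z, hz, hlt⟩ := exists_point_in_ball M
    (fun h => by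
      rw [h, abs_zero, eq_comm, div_eq_zero_iff] at hMd
      rcases hMd with h' | h'
      · exact absurd h' (by positivity)
      · rw [abs_eq_zero, Int.cast_eq_zero, norm_eq_zero] at h'
        exact hd0 h')
    (R := Real.sqrt 2) (by positivity) (by
      rw [hMd, Fintype.card_prod, Fintype.card_fin, Fintype.card_fin]
      rw [show ((3 * 2 : ℕ) : ℝ) / 2 + 1 = ((3 : ℕ) : ℝ) + 1 by norm_num,
        Real.Gamma_nat_eq_factorial, show (3 * 2 : ℕ) = 2 * 3 by norm_num, pow_mul, pow_mul,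
        pow_mul, Real.sq_sqrt (by norm_num), Real.sq_sqrt Real.pi_pos.le]
      have hN : (18 : ℝ) ≤ |((norm d : ℤ) : ℝ)| := by exact_mod_cast hd
      have hpi : (309 : ℝ) / 10 ≤ Real.pi ^ 3 :=
        le_trans (by norm_num) (pow_le_pow_left₀ (by norm_num) (le_of_lt Real.pi_gt_d2) 3)
      have h5 : Real.sqrt 5 < 2237 / 1000 := by
        rw [Real.sqrt_lt' (by norm_num)]
        norm_num
      rw [← mul_div_assoc, div_lt_iff₀ (by linarith)]
      norm_num [Nat.factorial]
      nlinarith [mul_le_mul hpi hN (by norm_num) (by positivity)])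
  set u : O := ⟨z (0, 0), z (0, 1)⟩ with hu
  set v : O := ⟨z (1, 0), z (1, 1)⟩ with hv
  set w : O := ⟨z (2, 0), z (2, 1)⟩ with hw
  have hne : u ≠ 0 ∨ v ≠ 0 ∨ w ≠ 0 := by
    by_contra h
    push Not at h
    obtain ⟨h1, h2, h3⟩ := h
    refine hz (funext fun ⟨i, j⟩ => ?_)
    fin_cases i <;> fin_cases j
    exacts [congrArg QuadraticAlgebra.re h1, congrArg QuadraticAlgebra.im h1,
      congrArg QuadraticAlgebra.re h2, congrArg QuadraticAlgebra.im h2,
      congrArg QuadraticAlgebra.re h3, congrArg QuadraticAlgebra.im h3]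
  set Q := u ^ 2 + (p * u + d * v) ^ 2 + (q * u + d * w) ^ 2 with hQ
  have hQ0 : Q ≠ 0 := fun h0 => by
    have h := congrArg (emb 0) h0
    simp only [hQ, map_add, map_pow, map_zero] at h
    rw [← map_add, ← map_add, add_eq_zero_iff_of_nonneg (add_nonneg (sq_nonneg _) (sq_nonneg _))
      (sq_nonneg _), add_eq_zero_iff_of_nonneg (sq_nonneg _) (sq_nonneg _)] at h
    obtain ⟨⟨h1, h2⟩, h3⟩ := h
    have u0 := (map_eq_zero_iff _ (emb_injective 0)).1 (sq_eq_zero_iff.1 h1)
    have v0 := (map_eq_zero_iff _ (emb_injective 0)).1 (sq_eq_zero_iff.1 h2)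
    have w0 := (map_eq_zero_iff _ (emb_injective 0)).1 (sq_eq_zero_iff.1 h3)
    rw [u0, mul_zero, zero_add] at v0 w0
    simp [u0, (mul_eq_zero.1 v0).resolve_left hd0, (mul_eq_zero.1 w0).resolve_left hd0] at hne
  have hj : ∀ j, ∑ i, (M *ᵥ fun l => (z l : ℝ)) (i, j) ^ 2 = emb j Q / emb j d ^ 2 := fun j => by
    have hw' : ((1 : Matrix (Fin 3) (Fin 3) ℝ) ⊗ₖ E) *ᵥ (fun l => (z l : ℝ)) =
        fun l => emb l.2 (![u, v, w] l.1) := funext fun ⟨i, k⟩ => by
      fin_cases i <;> fin_cases k <;>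
        simp [Matrix.mulVec, dotProduct, Fintype.sum_prod_type, Fin.sum_univ_two,
          kroneckerMap_apply, E, hu, hv, hw, emb_apply, root, Matrix.one_apply,
          mul_comm]
    rw [hMdef, ← Matrix.mulVec_mulVec, hw', Fin.sum_univ_three]
    simp [Matrix.mulVec, dotProduct, Fintype.sum_prod_type, Fin.sum_univ_three,
      blockDiagonal_apply, T, hQ, hs]
    field_simp [he j]
  rw [Fintype.sum_prod_type, Finset.sum_comm, Fin.sum_univ_two, hj, hj,
    Real.sq_sqrt (by norm_num)] at hlt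
  refine ⟨u, v, w, hne, hQ0, ?_⟩
  have hpos : ∀ j, 0 ≤ emb j Q := fun j => by
    simp only [hQ, map_add, map_pow]
    positivity
  set X := emb 0 Q / emb 0 d ^ 2 with hX
  set Y := emb 1 Q / emb 1 d ^ 2 with hY
  have hXY : X * Y < 1 := by
    nlinarith [sq_nonneg (X - Y), div_nonneg (hpos 0) (sq_nonneg (emb 0 d)),
      div_nonneg (hpos 1) (sq_nonneg (emb 1 d))]
  have h2 : X * Y = ((norm Q : ℤ) : ℝ) / ((norm d : ℤ) : ℝ) ^ 2 := by
    rw [hX, hY, ← mul_eq_norm, ← mul_eq_norm, div_mul_div_comm, mul_pow]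
  have hd2 : (0 : ℝ) < ((norm d : ℤ) : ℝ) ^ 2 := by
    rw [← mul_eq_norm]
    exact sq_pos_of_ne_zero (mul_ne_zero (he 0) (he 1))
  rw [h2, div_lt_one hd2] at hXY
  have hQn : 0 ≤ norm Q := by
    have := mul_eq_norm Q ▸ mul_nonneg (hpos 0) (hpos 1)
    exact_mod_cast this
  rw [abs_of_nonneg hQn]
  exact_mod_cast hXY

/-- The large primes. -/
theorem cancel_large {d : O} (hd : Irreducible d) (h18 : 18 ≤ |norm d|)
    (ih : ∀ t : O, t ≠ 0 → |norm t| < |norm d| → Cancel t) : Cancel d := by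
  have main : ∀ m a b c : O, a ^ 2 + b ^ 2 + c ^ 2 = d ^ 2 * m → ¬d ∣ a → IsSum3 m := by
    intro m a b c h ha
    obtain ⟨x, e, he⟩ := exists_inverse hd ha
    obtain ⟨u, v, w, -, hQ0, hQn⟩ := exists_short h18 (x * b) (x * c)
    set k := u * x
    obtain ⟨t, ht⟩ : ∃ t, (k * a - d * (u * e)) ^ 2 + (k * b - d * -v) ^ 2 +
        (k * c - d * -w) ^ 2 = d * t :=
      ⟨k ^ 2 * d * m - 2 * k * (a * (u * e) + b * -v + c * -w) +
        d * ((u * e) ^ 2 + (-v) ^ 2 + (-w) ^ 2), by linear_combination k ^ 2 * h⟩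
    have hQ : u ^ 2 + (x * b * u + d * v) ^ 2 + (x * c * u + d * w) ^ 2 = d * t := by
      rw [← ht, show k * a - d * (u * e) = u by simp only [k]; linear_combination u * he]
      simp only [k]
      ring
    rw [hQ] at hQ0 hQn
    rw [map_mul, abs_mul, ← sq_abs (norm d), pow_two] at hQn
    exact ih t (right_ne_zero_of_mul hQ0) (lt_of_mul_lt_mul_left hQn (abs_nonneg _)) m
      (reflect hd.ne_zero h ht)
  rintro m ⟨a, b, c, h⟩
  by_cases ha : d ∣ a
  swap
  · exact main m a b c h ha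
  by_cases hb : d ∣ b
  swap
  · exact main m b a c (by linear_combination h) hb
  by_cases hc : d ∣ c
  swap
  · exact main m c a b (by linear_combination h) hc
  obtain ⟨a, rfl⟩ := ha
  obtain ⟨b, rfl⟩ := hb
  obtain ⟨c, rfl⟩ := hc
  exact ⟨a, b, c, mul_left_cancel₀ (pow_ne_zero 2 hd.ne_zero) (by linear_combination h)⟩

/-- **Every square cancels.** -/
theorem cancel_all : ∀ {d : O}, d ≠ 0 → Cancel d := by
  suffices ∀ n : ℕ, ∀ d : O, (norm d).natAbs = n → d ≠ 0 → Cancel d from
    fun {d} h => this _ d rfl h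
  intro n
  induction n using Nat.strong_induction_on with
  | _ n ih =>
    intro d hn hd
    have ih' : ∀ t : O, t ≠ 0 → |norm t| < |norm d| → Cancel t := fun t ht hlt => by
      refine ih _ ?_ t rfl ht
      rw [Int.abs_eq_natAbs, Int.abs_eq_natAbs] at hlt
      omega
    by_cases hu : IsUnit d
    · exact cancel_unit hu
    by_cases hir : Irreducible d
    · rcases lt_or_ge |norm d| 18 with h | h
      exacts [cancel_small hir h, cancel_large hir h ih']
    simp only [irreducible_iff, hu, not_false_eq_true, true_and, not_forall, not_or] at hir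
    obtain ⟨f, g, rfl, hf, hg⟩ := hir
    have hf0 : f ≠ 0 := left_ne_zero_of_mul hd
    have hg0 : g ≠ 0 := right_ne_zero_of_mul hd
    have one_lt : ∀ z : O, z ≠ 0 → ¬IsUnit z → 1 < |norm z| := fun z hz hzu =>
      lt_of_le_of_ne (Int.one_le_abs fun h => hz (norm_eq_zero.1 h))
        fun h => hzu (abs_norm_eq_one_iff.1 h.symm)
    have := one_lt f hf0 hf
    have := one_lt g hg0 hg
    refine (ih' f hf0 ?_).mul (ih' g hg0 ?_) <;> rw [map_mul, abs_mul] <;> nlinarith

end FA.MaassThree
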